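import Mathlib
import Fermat.Agent.S18.GaussFromH
import Fermat.Agent.S18.ResidueBasics
import Fermat.Agent.S18.C.GaussRat
import Fermat.Agent.S18.C.GaussZl
import Fermat.Agent.S18.C.GaussA
import Fermat.Agent.S18.C.BaseChangeR
import Fermat.Agent.S18.C.FormsZMod

/-!
# PROJECT I (S37), slice I-1a: the Gauss valuation ring of `ℚ̄(X₀(N))` WITHOUT the reduction
hypothesis

`S18/GaussFromH` builds the Gauss valuation ring `OwV` of `F_L = ℚ̄(X₀(N))` and its reduction
`redV : OwV → F_k` from the single property `HasRep A π N` (every nonzero function is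
`c · a / b` with `a, b` integral of nonzero reduction), which it derives from the hypothesis
`ReductionInputsModL`.  Here `HasRep A π N` is proved unconditionally for `ℓ ∤ N`, from the
arithmetic model over `ℤ_(ℓ)` (S28 `OwFull`, finite étale over the Gauss valuation ring of the
`j`-line) and the two form isomorphisms (`C/Forms`, `C/FormsZMod`).
-/

set_option autoImplicit false
set_option linter.unusedSectionVars false

noncomputable section

namespace Fermat.Agent.S37.Gauss.HasRep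

open HahnSeries ModularCurve IntermediateField Polynomial
open Fermat.Agent.S28 Fermat.Agent.S28.GaussFull
open Fermat.Agent.S28.GaussVal (Zl Ol mem_Zl_iff liftEquiv liftEquiv_coeff resid redL redL_of_mem
  redL_mul redwL_eq InOw)
open Fermat.Agent.S18.C Fermat.Agent.S18.C.UnramVal
open Fermat.Agent.S18.GaussFromH

/-! ### ring homomorphisms out of `ℤ_(ℓ)` -/

section Zl

variable {ℓ : ℕ} [Fact ℓ.Prime]

/-- two ring homomorphisms from `ℤ_(ℓ)` to a field of characteristic `ℓ` agree -/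
theorem zl_hom_ext {k : Type*} [Field k] [CharP k ℓ] (φ ψ : ↥(Zl ℓ) →+* k) : φ = ψ := by
  have key : ∀ (χ : ↥(Zl ℓ) →+* k) (x : ↥(Zl ℓ)),
      χ x * ((x : ℚ).den : k) = ((x : ℚ).num : k) := by
    intro χ x
    have h1 : x * (((x : ℚ).den : ℕ) : ↥(Zl ℓ)) = (((x : ℚ).num : ℤ) : ↥(Zl ℓ)) := by
      apply Subtype.ext
      push_cast
      exact Rat.mul_den_eq_num (x : ℚ)
    have h2 := congrArg χ h1
    rwa [map_mul, map_natCast, map_intCast] at h2
  ext x
  have hden : (((x : ℚ).den : ℕ) : k) ≠ 0 := by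
    rw [Ne, CharP.cast_eq_zero_iff k ℓ]
    intro hdvd
    have hp : ℓ.Prime := Fact.out
    have h1 : ℓ ∣ Nat.gcd (x : ℚ).den ℓ := Nat.dvd_gcd hdvd dvd_rfl
    rw [(mem_Zl_iff ℓ).mp x.2] at h1
    exact hp.one_lt.ne' (Nat.dvd_one.mp h1)
  apply mul_right_cancel₀ hden
  rw [key φ x, key ψ x]

variable {L : Type*} [Field L] [Algebra ℚ L] (A : ValuationSubring L)

theorem algebraMap_mem_of_mem_Zl (hA : A.LiesOverPrime ℓ) {r : ℚ} (hr : r ∈ Zl ℓ) :
    algebraMap ℚ L r ∈ A := by
  have hV := GaussZl.over_comap ℓ A hA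
  have h1 : r ∈ A.comap (algebraMap ℚ L) := by
    rw [GaussZl.mem_iff_den hV]
    intro hdvd
    have hp : ℓ.Prime := Fact.out
    have h1 : ℓ ∣ Nat.gcd r.den ℓ := Nat.dvd_gcd hdvd dvd_rfl
    rw [(mem_Zl_iff ℓ).mp hr] at h1
    exact hp.one_lt.ne' (Nat.dvd_one.mp h1)
  exact h1

/-- `ℤ_(ℓ) → A` -/
def zlToA (hA : A.LiesOverPrime ℓ) : ↥(Zl ℓ) →+* ↥A :=
  ((algebraMap ℚ L).comp (Zl ℓ).subtype).codRestrict A
    (fun r => algebraMap_mem_of_mem_Zl A hA r.2)

@[simp]
theorem coe_zlToA (hA : A.LiesOverPrime ℓ) (r : ↥(Zl ℓ)) :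
    ((zlToA A hA r : ↥A) : L) = algebraMap ℚ L (r : ℚ) := rfl

/-- series over `ℤ_(ℓ)` as series over `A` -/
def liftA (hA : A.LiesOverPrime ℓ) : ↥(Ol ℓ) →+* LaurentSeries ↥A :=
  (coeffMap (zlToA A hA)).comp (liftEquiv ℓ).toRingHom

theorem coeffMap_subtype_liftA (hA : A.LiesOverPrime ℓ) (x : ↥(Ol ℓ)) :
    coeffMap A.subtype (liftA A hA x) = coeffEmb L (x : LaurentSeries ℚ) := by
  ext m
  simp only [liftA, RingHom.comp_apply, RingEquiv.toRingHom_eq_coe, RingHom.coe_coe,
    coeffMap_coeff, coeffEmb_coeff]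
  show ((zlToA A hA ((liftEquiv ℓ x).coeff m) : ↥A) : L) = _
  rw [coe_zlToA, liftEquiv_coeff]

theorem coeffMap_liftA {k : Type*} [Field k] [Algebra (ZMod ℓ) k] (hA : A.LiesOverPrime ℓ)
    (π : ↥A →+* k) (x : ↥(Ol ℓ)) :
    coeffMap π (liftA A hA x) = coeffMap (algebraMap (ZMod ℓ) k) (GaussVal.red ℓ x) := by
  have : CharP k ℓ := charP_of_injective_algebraMap (algebraMap (ZMod ℓ) k).injective ℓ
  have h : π.comp (zlToA A hA) = (algebraMap (ZMod ℓ) k).comp (resid ℓ) := zl_hom_ext _ _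
  simp only [liftA, GaussVal.red, RingHom.comp_apply, coeffMap_coeffMap]
  exact coeffMap_congr h _

end Zl

/-! ### integral elements of the Gauss model: constants, polynomials in `j`, `ℓ`-integral series -/

section Int

open Fermat.Agent.S24.DegreeAlg (jgen coe_jgen)
open Fermat.Agent.S18.B.FkBasics (jk coe_jk transcendental_jk)

local notation "Kb" => AlgebraicClosure ℚ

variable {ℓ : ℕ} [Fact ℓ.Prime] (N : ℕ) [NeZero N] (A : ValuationSubring Kb)
  {k : Type*} [Field k] (π : ↥A →+* k)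

/-- constants, as a ring homomorphism into the integral elements -/
def constHom : ↥A →+* ↥(intRing A π N) where
  toFun := constI
  map_one' := toFL_injective (by rw [toFL_constI, map_one]; simp)
  map_mul' a b := toFL_injective (by
    rw [map_mul, toFL_constI, toFL_constI, toFL_constI, ← map_mul]; rfl)
  map_zero' := toFL_injective (by rw [toFL_constI, map_zero]; simp)
  map_add' a b := toFL_injective (by
    rw [map_add, toFL_constI, toFL_constI, toFL_constI, ← map_add]; rfl)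

theorem toFL_constHom (c : ↥A) :
    toFL A π N (constHom N A π c) = algebraMap Kb ↥(modularFunctionFieldBar N) (c : Kb) :=
  toFL_constI c

theorem red_constHom (c : ↥A) :
    S18.GaussFromH.red A π N (constHom N A π c) = algebraMap k ↥(modularFunctionFieldFullC k N) (π c) :=
  red_constI c

/-- integral polynomials in `j` -/
def evI : (↥A)[X] →+* ↥(intRing A π N) := Polynomial.eval₂RingHom (constHom N A π) (jI A π N)

theorem toFL_jI : toFL A π N (jI A π N) = jgen N :=
  Subtype.ext (by rw [coe_toFL_jI, coe_jgen])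

theorem red_jI : S18.GaussFromH.red A π N (jI A π N) = jk k N :=
  Subtype.ext (by rw [coe_red_jI, coe_jk])

theorem toFL_evI (p : (↥A)[X]) :
    toFL A π N (evI N A π p) = Polynomial.aeval (jgen N) (p.map A.subtype) := by
  rw [evI, Polynomial.coe_eval₂RingHom, Polynomial.hom_eval₂, toFL_jI, Polynomial.aeval_def,
    Polynomial.eval₂_map]
  congr 1
  exact RingHom.ext fun c => toFL_constHom N A π c

theorem red_evI (p : (↥A)[X]) :
    S18.GaussFromH.red A π N (evI N A π p) = Polynomial.aeval (jk k N) (p.map π) := by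
  rw [evI, Polynomial.coe_eval₂RingHom, Polynomial.hom_eval₂, red_jI, Polynomial.aeval_def,
    Polynomial.eval₂_map]
  congr 1
  exact RingHom.ext fun c => red_constHom N A π c

theorem red_evI_ne_zero {p : (↥A)[X]} (hp : p.map π ≠ 0) :
    S18.GaussFromH.red A π N (evI N A π p) ≠ 0 := by
  rw [red_evI]
  intro h0
  exact hp ((transcendental_iff.mp (transcendental_jk k N)) _ h0)

variable [Algebra (ZMod ℓ) k] (hA : A.LiesOverPrime ℓ)

theorem red_mem_full (hℓN : ¬ ℓ ∣ N) {x : LaurentSeries ℚ}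
    (hxF : x ∈ modularFunctionFieldFull N) (hx : x ∈ Ol ℓ) : GaussVal.red ℓ ⟨x, hx⟩ ∈ modularFunctionFieldFullC (ZMod ℓ) N := by
  have h1 := redwFull_of_mem_Ol ℓ N (x := ⟨x, hxF⟩) hx
  rw [redL_of_mem ℓ hx] at h1
  rw [← h1]
  exact GaussDVR.redwFull_mem_full ℓ N hℓN _

/-- an `ℓ`-integral element of `F0` as an integral element of the Gauss model over `A` -/
def ofOl (hℓN : ¬ ℓ ∣ N) {x : LaurentSeries ℚ} (hxF : x ∈ modularFunctionFieldFull N)
    (hx : x ∈ Ol ℓ) : ↥(intRing A π N) :=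
  ⟨liftA A hA ⟨x, hx⟩, by
    rw [mem_intRing, coeffMap_subtype_liftA, coeffMap_liftA]
    exact ⟨coeffEmb_mem_laurentBaseChange Kb hxF,
      Forms.coeffMap_mem_full (ZMod ℓ) k N (red_mem_full N hℓN hxF hx)⟩⟩

theorem toFL_ofOl (hℓN : ¬ ℓ ∣ N) {x : LaurentSeries ℚ}
    (hxF : x ∈ modularFunctionFieldFull N) (hx : x ∈ Ol ℓ) :
    toFL A π N (ofOl N A π hA hℓN hxF hx) = Forms.embBar N ⟨x, hxF⟩ :=
  Subtype.ext (by rw [coe_toFL, Forms.coe_embBar]; exact coeffMap_subtype_liftA A hA ⟨x, hx⟩)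

theorem red_ofOl (hℓN : ¬ ℓ ∣ N) {x : LaurentSeries ℚ}
    (hxF : x ∈ modularFunctionFieldFull N) (hx : x ∈ Ol ℓ) :
    S18.GaussFromH.red A π N (ofOl N A π hA hℓN hxF hx) =
      Forms.embK (ZMod ℓ) k N ⟨GaussVal.red ℓ ⟨x, hx⟩, red_mem_full N hℓN hxF hx⟩ :=
  Subtype.ext (by rw [coe_red, Forms.coe_embK]; exact coeffMap_liftA A hA π ⟨x, hx⟩)

end Int

/-! ### the compatible bases of `F_L / ℚ̄(j)` and `F_k / k(j)` -/

section Bases

open Fermat.Agent.S24.DegreeAlg (jgen coe_jgen)
open Fermat.Agent.S18.B.FkBasics (jk coe_jk transcendental_jk)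
open Fermat.Agent.S18.C.GaussDVR (kJ resField)

local notation "Kb" => AlgebraicClosure ℚ

variable (ℓ : ℕ) [Fact ℓ.Prime] (N : ℕ) [NeZero N]

attribute [local instance] GaussDVR.algRes UnramVal.algBelow

/-- the reduction of an element of `OwFull`, as an element of `F_{𝔽_ℓ}` -/
def redF (hℓN : ¬ ℓ ∣ N) (z : ↥(OwFull ℓ N)) : ↥(modularFunctionFieldFullC (ZMod ℓ) N) :=
  ⟨redwFull ℓ N z, GaussDVR.redwFull_mem_full ℓ N hℓN z⟩

theorem coe_algebraMap_mem_kJ (g : RatFunc (ZMod ℓ)) :
    ((algebraMap (RatFunc (ZMod ℓ)) ↥(modularFunctionFieldFullC (ZMod ℓ) N) g :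
      ↥(modularFunctionFieldFullC (ZMod ℓ) N)) : LaurentSeries (ZMod ℓ)) ∈ kJ ℓ := by
  have h1 : algebraMap (RatFunc (ZMod ℓ)) ↥(modularFunctionFieldFullC (ZMod ℓ) N) g ∈
      (ZMod ℓ)⟮jk (ZMod ℓ) N⟯ := by
    rw [ModularInst.algebraMap_Fk]
    exact S18.A.Chart.evalRat_mem_adjoin _ (IntermediateField.mem_adjoin_simple_self _ _) g
  have h2 : ((ZMod ℓ)⟮jk (ZMod ℓ) N⟯).map (modularFunctionFieldFullC (ZMod ℓ) N).val = kJ ℓ := by
    rw [IntermediateField.adjoin_map, Set.image_singleton]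
    rfl
  rw [← h2]
  exact ⟨_, h1, rfl⟩

theorem linearIndependent_redF (hℓN : ¬ ℓ ∣ N) {n : ℕ} (t : Fin n → ↥(OwFull ℓ N))
    (hind : LinearIndependent ↥(kJ ℓ) (fun i => GaussDVR.red ℓ N (t i))) :
    LinearIndependent (RatFunc (ZMod ℓ)) (fun i => redF ℓ N hℓN (t i)) := by
  rw [Fintype.linearIndependent_iff]
  intro g hg i
  have h1 : ∑ i, (⟨_, coe_algebraMap_mem_kJ ℓ N (g i)⟩ : ↥(kJ ℓ)) • GaussDVR.red ℓ N (t i) = 0 := by
    apply Subtype.ext
    have h2 := congrArg (fun x : ↥(modularFunctionFieldFullC (ZMod ℓ) N) =>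
      (x : LaurentSeries (ZMod ℓ))) hg
    simp only [AddSubmonoidClass.coe_finsetSum, ZeroMemClass.coe_zero] at h2 ⊢
    rw [← h2]
    refine Finset.sum_congr rfl fun i _ => ?_
    rw [Algebra.smul_def, Algebra.smul_def]
    rfl
  have h3 := Fintype.linearIndependent_iff.mp hind _ h1 i
  have h4 : algebraMap (RatFunc (ZMod ℓ)) ↥(modularFunctionFieldFullC (ZMod ℓ) N) (g i) = 0 := by
    apply Subtype.ext
    exact congrArg (fun x : ↥(kJ ℓ) => (x : LaurentSeries (ZMod ℓ))) h3
  exact (map_eq_zero _).mp h4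

/-- **The compatible bases**: a family `t` in `OwFull` which is a `ℚ̄(j)`-basis of `F_L` and whose
reduction is a `k(j)`-basis of `F_k`. -/
theorem exists_bases (k : Type*) [Field k] [Algebra (ZMod ℓ) k] [IsAlgClosed k] (hℓN : ¬ ℓ ∣ N) :
    ∃ (n : ℕ) (t : Fin n → ↥(OwFull ℓ N))
      (bL : Module.Basis (Fin n) (RatFunc Kb) ↥(modularFunctionFieldBar N))
      (bk : Module.Basis (Fin n) (RatFunc k) ↥(modularFunctionFieldFullC k N)),
      (∀ i, bL i = Forms.embBar N ((t i : ↥(OwFull ℓ N)) : ↥(modularFunctionFieldFull N))) ∧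
      (∀ i, bk i = Forms.embK (ZMod ℓ) k N (redF ℓ N hℓN (t i))) := by
  obtain ⟨t, h⟩ := GaussRat.hypRat ℓ N hℓN
  obtain ⟨bL, hbL⟩ := BaseChangeR.exists_basis_bar N h.basisE
  have hli := linearIndependent_redF ℓ N hℓN t h.indep
  have hcard : Fintype.card (Fin (Module.finrank ↥(GaussDVR.Ej N) ↥(modularFunctionFieldFull N))) =
      Module.finrank (RatFunc (ZMod ℓ)) ↥(modularFunctionFieldFullC (ZMod ℓ) N) := by
    rw [Fintype.card_fin, GaussDVR.finrank_full_eq ℓ N hℓN,
      FormsZMod.finrank_ratFunc_zmod_eq ℓ N hℓN]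
  have hfd : FiniteDimensional (RatFunc (ZMod ℓ)) ↥(modularFunctionFieldFullC (ZMod ℓ) N) :=
    (BaseChangeR.finrank_ratFunc_fullC (ZMod ℓ) N).1
  let bRes : Module.Basis _ (RatFunc (ZMod ℓ)) ↥(modularFunctionFieldFullC (ZMod ℓ) N) :=
    Module.Basis.mk hli (hli.span_eq_top_of_card_eq_finrank' hcard).ge
  obtain ⟨bk, hbk⟩ := FormsZMod.exists_basis_zmod ℓ N k hℓN bRes
  refine ⟨_, t, bL, bk, fun i => ?_, fun i => ?_⟩
  · rw [hbL, h.basisE_apply]
  · rw [hbk, Module.Basis.mk_apply]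

end Bases

/-! ### joint scaling of polynomials, and the main theorem -/

section Scale

variable {L : Type*} [Field L] {A : ValuationSubring L} {k : Type*} [Field k]

/-- **joint scaling**: a finite family of polynomials over `L`, not all zero, is a constant times
a family of polynomials over `A` one of which has nonzero reduction. -/
theorem exists_scale_family {ι : Type*} [Fintype ι] (π : ↥A →+* k) (P : ι → L[X])
    (hP : ∃ i, P i ≠ 0) :
    ∃ (c : L) (Q : ι → (↥A)[X]), c ≠ 0 ∧ (∃ i, (Q i).map π ≠ 0) ∧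
      ∀ i, P i = Polynomial.C c * (Q i).map A.subtype := by
  classical
  obtain ⟨j, hj⟩ := hP
  have hne : (Finset.univ.sigma fun i => (P i).support).Nonempty := by
    obtain ⟨m, hm⟩ := Polynomial.nonempty_support_iff.mpr hj
    exact ⟨⟨j, m⟩, Finset.mem_sigma.mpr ⟨Finset.mem_univ _, hm⟩⟩
  obtain ⟨⟨i0, m0⟩, hm, hmax⟩ := Finset.exists_max_image _
    (fun x : Σ _ : ι, ℕ => A.valuation ((P x.1).coeff x.2)) hne
  have hc : (P i0).coeff m0 ≠ 0 := Polynomial.mem_support_iff.mp (Finset.mem_sigma.mp hm).2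
  have hmem : ∀ i m, (P i).coeff m / (P i0).coeff m0 ∈ A := by
    intro i m
    by_cases hi : m ∈ (P i).support
    · rw [← ValuationSubring.valuation_le_one_iff, map_div₀]
      exact div_le_one_of_le₀
        (hmax ⟨i, m⟩ (Finset.mem_sigma.mpr ⟨Finset.mem_univ _, hi⟩)) zero_le
    · rw [Polynomial.notMem_support_iff.mp hi, zero_div]
      exact A.zero_mem
  have hlift : ∀ i, Polynomial.C ((P i0).coeff m0)⁻¹ * P i ∈ Polynomial.lifts A.subtype := by
    intro i
    rw [Polynomial.lifts_iff_coeff_lifts]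
    intro m
    rw [Polynomial.coeff_C_mul]
    exact ⟨⟨(P i).coeff m / (P i0).coeff m0, hmem i m⟩, by simp [div_eq_inv_mul]⟩
  choose Q hQ using fun i => (Polynomial.mem_lifts _).mp (hlift i)
  refine ⟨(P i0).coeff m0, Q, hc, ⟨i0, ?_⟩, fun i => ?_⟩
  · intro h0
    have h1 : ((Q i0).map π).coeff m0 = 0 := by rw [h0, Polynomial.coeff_zero]
    rw [Polynomial.coeff_map] at h1
    have h2 : (Q i0).coeff m0 = 1 := by
      apply Subtype.ext
      have h3 := congrArg (fun q => Polynomial.coeff q m0) (hQ i0)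
      simp only [Polynomial.coeff_map, Polynomial.coeff_C_mul] at h3
      rw [inv_mul_cancel₀ hc] at h3
      exact h3
    rw [h2, map_one] at h1
    exact one_ne_zero h1
  · rw [hQ i, ← mul_assoc, ← Polynomial.C_mul, mul_inv_cancel₀ hc, Polynomial.C_1, one_mul]

end Scale

section Main

open Fermat.Agent.S24.DegreeAlg (jgen coe_jgen)
open Fermat.Agent.S18.B.FkBasics (jk coe_jk transcendental_jk)

local notation "Kb" => AlgebraicClosure ℚ

variable {ℓ : ℕ} [Fact ℓ.Prime] (N : ℕ) [NeZero N] (A : ValuationSubring Kb)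
  {k : Type*} [Field k] (π : ↥A →+* k) [Algebra (ZMod ℓ) k]

/-- an element of `OwFull` is a quotient of integral elements of the Gauss model over `A`,
compatibly with the reductions -/
theorem exists_rep_OwFull (hA : A.LiesOverPrime ℓ) (hℓN : ¬ ℓ ∣ N) (z : ↥(OwFull ℓ N)) :
    ∃ α β : ↥(intRing A π N), S18.GaussFromH.red A π N β ≠ 0 ∧
      Forms.embBar N (z : ↥(modularFunctionFieldFull N)) * toFL A π N β = toFL A π N α ∧
      Forms.embK (ZMod ℓ) k N (redF ℓ N hℓN z) * S18.GaussFromH.red A π N β =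
        S18.GaussFromH.red A π N α := by
  obtain ⟨a, b, haF, ha, hbF, hb, hrb, hab⟩ :=
    (show InOw ℓ (modularFunctionFieldFull N)
      ((z : ↥(modularFunctionFieldFull N)) : LaurentSeries ℚ) from z.2)
  refine ⟨ofOl N A π hA hℓN haF ha, ofOl N A π hA hℓN hbF hb, ?_, ?_, ?_⟩
  · rw [red_ofOl, Ne, map_eq_zero]
    intro h0
    apply hrb
    rw [redL_of_mem ℓ hb]
    exact congrArg (fun x : ↥(modularFunctionFieldFullC (ZMod ℓ) N) =>
      (x : LaurentSeries (ZMod ℓ))) h0
  · rw [toFL_ofOl, toFL_ofOl, ← map_mul]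
    congr 1
    exact Subtype.ext hab
  · rw [red_ofOl, red_ofOl, ← map_mul]
    congr 1
    apply Subtype.ext
    show redwFull ℓ N z * GaussVal.red ℓ ⟨b, hb⟩ = GaussVal.red ℓ ⟨a, ha⟩
    have h1 : redwFull ℓ N z = redL ℓ a / redL ℓ b :=
      redwL_eq ha hb haF hbF hrb hab
    rw [h1, ← redL_of_mem ℓ hb, ← redL_of_mem ℓ ha, div_mul_cancel₀ _ hrb]

theorem algebraMap_FL_poly (p : Kb[X]) :
    algebraMap (RatFunc Kb) ↥(modularFunctionFieldBar N) (algebraMap Kb[X] (RatFunc Kb) p) =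
      Polynomial.aeval (jgen N) p := by
  rw [ModularInst.algebraMap_FL, S18.A.Chart.evalRat_algebraMap]

theorem algebraMap_Fk_poly (p : k[X]) :
    algebraMap (RatFunc k) ↥(modularFunctionFieldFullC k N) (algebraMap k[X] (RatFunc k) p) =
      Polynomial.aeval (jk k N) p := by
  rw [ModularInst.algebraMap_Fk, S18.A.Chart.evalRat_algebraMap]

theorem aeval_jgen_scale (c : Kb) (q : (↥A)[X]) :
    Polynomial.aeval (jgen N) (Polynomial.C c * q.map A.subtype) =
      algebraMap Kb ↥(modularFunctionFieldBar N) c * toFL A π N (evI N A π q) := by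
  rw [map_mul, Polynomial.aeval_C, toFL_evI]

/-- **`HasRep` without the reduction hypothesis.** -/
theorem hasRep [IsAlgClosed k] (hA : A.LiesOverPrime ℓ) (hℓN : ¬ ℓ ∣ N) : HasRep A π N := by
  classical
  intro f hf
  obtain ⟨n, t, bL, bk, hbL, hbk⟩ := exists_bases ℓ N k hℓN
  choose α β hβ hLαβ hKαβ using fun i => exists_rep_OwFull N A π hA hℓN (t i)
  -- coordinates
  set c : Fin n → RatFunc Kb := fun i => bL.repr f i with hc
  have hinjL : Function.Injective (algebraMap Kb[X] (RatFunc Kb)) :=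
    IsFractionRing.injective Kb[X] (RatFunc Kb)
  have hinjk : Function.Injective (algebraMap k[X] (RatFunc k)) :=
    IsFractionRing.injective k[X] (RatFunc k)
  have hf_sum : f = ∑ i, algebraMap (RatFunc Kb) ↥(modularFunctionFieldBar N) (c i) *
      Forms.embBar N ((t i : ↥(OwFull ℓ N)) : ↥(modularFunctionFieldFull N)) := by
    conv_lhs => rw [← bL.sum_repr f]
    refine Finset.sum_congr rfl fun i _ => ?_
    rw [Algebra.smul_def, hbL]
  -- common denominator
  set s : Kb[X] := ∏ i, (c i).denom with hs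
  set P : Fin n → Kb[X] := fun i => (c i).num * ∏ m ∈ Finset.univ.erase i, (c m).denom with hPdef
  have hs0 : s ≠ 0 := Finset.prod_ne_zero_iff.mpr fun i _ => RatFunc.denom_ne_zero _
  have hcP : ∀ i, c i * algebraMap Kb[X] (RatFunc Kb) s = algebraMap Kb[X] (RatFunc Kb) (P i) := by
    intro i
    have h1 : s = (c i).denom * ∏ m ∈ Finset.univ.erase i, (c m).denom :=
      (Finset.mul_prod_erase _ _ (Finset.mem_univ i)).symm
    rw [h1, hPdef, map_mul, map_mul, ← mul_assoc]
    congr 1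
    have hd : algebraMap Kb[X] (RatFunc Kb) (c i).denom ≠ 0 :=
      (map_ne_zero_iff _ hinjL).mpr (RatFunc.denom_ne_zero _)
    exact ((div_eq_iff hd).mp (RatFunc.num_div_denom (c i))).symm
  have hPne : ∃ i, P i ≠ 0 := by
    by_contra hall
    push Not at hall
    apply hf
    rw [hf_sum]
    refine Finset.sum_eq_zero fun i _ => ?_
    have h0 : c i = 0 := by
      have h1 := hcP i
      rw [hall i, map_zero] at h1
      rcases mul_eq_zero.mp h1 with h | h
      · exact h
      · exact absurd ((map_eq_zero_iff _ hinjL).mp h) hs0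
    rw [h0, map_zero, zero_mul]
  obtain ⟨cP, Q, hcP0, ⟨i0, hQi0⟩, hPQ⟩ := exists_scale_family π P hPne
  obtain ⟨cs, s0, hcs0, hs0π, hss0⟩ := GaussA.exists_scale_poly π s hs0
  set B : ↥(intRing A π N) := ∏ m, β m with hBdef
  set Bi : Fin n → ↥(intRing A π N) := fun i => ∏ m ∈ Finset.univ.erase i, β m with hBidef
  have hB : ∀ i, β i * Bi i = B := fun i => Finset.mul_prod_erase _ _ (Finset.mem_univ i)
  have hredB : S18.GaussFromH.red A π N B ≠ 0 := by
    rw [hBdef, map_prod]
    exact Finset.prod_ne_zero_iff.mpr fun i _ => hβ i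
  refine ⟨cP / cs, ∑ i, evI N A π (Q i) * α i * Bi i, evI N A π s0 * B,
    div_ne_zero hcP0 hcs0, ?_, ?_, ?_⟩
  · -- the reduction of the numerator
    have h1 : S18.GaussFromH.red A π N (∑ i, evI N A π (Q i) * α i * Bi i) =
        (∑ i, algebraMap k[X] (RatFunc k) ((Q i).map π) • bk i) *
          S18.GaussFromH.red A π N B := by
      rw [map_sum, Finset.sum_mul]
      refine Finset.sum_congr rfl fun i _ => ?_
      rw [map_mul, map_mul, ← hKαβ i, red_evI, Algebra.smul_def, algebraMap_Fk_poly, hbk i,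
        ← hB i, map_mul]
      ring
    rw [h1]
    refine mul_ne_zero ?_ hredB
    intro h0
    have h2 := Fintype.linearIndependent_iff.mp bk.linearIndependent _ h0 i0
    exact hQi0 ((map_eq_zero_iff _ hinjk).mp h2)
  · rw [map_mul]
    exact mul_ne_zero (red_evI_ne_zero N A π hs0π) hredB
  · -- the identity
    have hF1 : Polynomial.aeval (jgen N) s =
        algebraMap Kb ↥(modularFunctionFieldBar N) cs * toFL A π N (evI N A π s0) := by
      rw [hss0, aeval_jgen_scale N A π]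
    have hF2 : ∀ i, Polynomial.aeval (jgen N) (P i) =
        algebraMap Kb ↥(modularFunctionFieldBar N) cP * toFL A π N (evI N A π (Q i)) := by
      intro i
      rw [hPQ i, aeval_jgen_scale N A π]
    have hF4 : f * Polynomial.aeval (jgen N) s = ∑ i, Polynomial.aeval (jgen N) (P i) *
        Forms.embBar N ((t i : ↥(OwFull ℓ N)) : ↥(modularFunctionFieldFull N)) := by
      conv_lhs => rw [hf_sum]
      rw [Finset.sum_mul]
      refine Finset.sum_congr rfl fun i _ => ?_
      rw [← algebraMap_FL_poly, ← algebraMap_FL_poly, ← hcP i, map_mul]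
      ring
    have hcs' : algebraMap Kb ↥(modularFunctionFieldBar N) cs ≠ 0 :=
      (map_ne_zero_iff _ (algebraMap Kb ↥(modularFunctionFieldBar N)).injective).mpr hcs0
    have key : f * toFL A π N (evI N A π s0 * B) *
        algebraMap Kb ↥(modularFunctionFieldBar N) cs =
        algebraMap Kb ↥(modularFunctionFieldBar N) cP *
          toFL A π N (∑ i, evI N A π (Q i) * α i * Bi i) := by
      have e1 : f * toFL A π N (evI N A π s0 * B) *
          algebraMap Kb ↥(modularFunctionFieldBar N) cs =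
          f * Polynomial.aeval (jgen N) s * toFL A π N B := by
        rw [hF1, map_mul]
        ring
      rw [e1, hF4, Finset.sum_mul, map_sum, Finset.mul_sum]
      refine Finset.sum_congr rfl fun i _ => ?_
      rw [hF2 i, map_mul, map_mul, ← hLαβ i, ← hB i, map_mul]
      ring
    rw [map_div₀, div_mul_eq_mul_div, eq_div_iff hcs']
    exact key

end Main

end Fermat.Agent.S37.Gauss.HasRep
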