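import Mathlib
import Fermat.Agent.S37.Gauss.HasRep
import Fermat.Agent.S37.Deuring.Core

/-!
# PROJECT I (S37), slice I-1a: the Gauss datum of `ℚ̄(X₀(N))` at a prime `ℓ ∤ N`, WITHOUT the
reduction hypothesis

`A` a valuation subring of `ℚ̄` lying over `ℓ ∤ N`, `k` an algebraically closed field of
characteristic `ℓ` with a ring homomorphism `π : A →+* k` (onto, killing the non-units; in the
application `k = ResidueField A`, `π = residue A`).  From `Gauss/HasRep.hasRep` and the
valuation-ring construction of `S18/GaussFromH` we package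

* `gaussDatumOf` / `gaussDatum` : the `Deuring.Core.GaussDatum` (Gauss valuation ring
  `O = OwV hrep` of `F_L = modularFunctionFieldBar N`, reduction `red = redV hrep : O →+* F_k`);
* `mem_O_iff`, `toFL_mem_O`, `red_toFL` : the description through integral elements
  (`S18.GaussFromH.intRing A π N`: series over `A` lying in `F_L` with reduction in `F_k`);
* `jgen_mem_O`, `red_jgen : red j = J`; `red_surjective`.
-/

set_option autoImplicit false
set_option linter.unusedSectionVars false

noncomputable section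

namespace Fermat.Agent.S37.Gauss.Datum

open HahnSeries ModularCurve IsLocalRing
open Fermat.Agent.S18.GaussFromH
open Fermat.Agent.S24.DegreeAlg (jgen)
open Fermat.Agent.S18.B.FkBasics (jk)

local notation "Kb" => AlgebraicClosure ℚ

variable {ℓ : ℕ} [Fact ℓ.Prime] (N : ℕ) [NeZero N] (A : ValuationSubring Kb)

/-! ### general residue map `π : A →+* k` -/

section General

variable {k : Type*} [Field k] (π : ↥A →+* k)

/-- `HasRep` for a field `k` of characteristic `ℓ` (no `Algebra (ZMod ℓ) k` instance needed). -/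
theorem hasRepOf [CharP k ℓ] [IsAlgClosed k] (hA : A.LiesOverPrime ℓ) (hℓN : ¬ ℓ ∣ N) :
    HasRep A π N :=
  letI : Algebra (ZMod ℓ) k := ZMod.algebra k ℓ
  HasRep.hasRep N A π hA hℓN

/-- **The Gauss datum**, for a residue map `π` onto an algebraically closed field of
characteristic `ℓ ∤ N`. -/
def gaussDatumOf [CharP k ℓ] [IsAlgClosed k] (hA : A.LiesOverPrime ℓ) (hℓN : ¬ ℓ ∣ N)
    (hπs : Function.Surjective π) (hπ : ∀ a : ↥A, ¬ IsUnit a → π a = 0) :
    Deuring.Core.GaussDatum A π ↥(modularFunctionFieldBar N) ↥(modularFunctionFieldFullC k N) where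
  O := OwV A π N (hasRepOf N A π hA hℓN)
  red := redV A π N (hasRepOf N A π hA hℓN)
  pi_surjective := hπs
  algebraMap_mem := algebraMap_mem_OwV (hasRepOf N A π hA hℓN)
  red_algebraMap := redV_algebraMap (hasRepOf N A π hA hℓN)
  red_eq_zero_iff := redV_eq_zero_iff (hasRepOf N A π hA hℓN)
  exists_const_mul_unit := exists_const_mul_unit (hasRepOf N A π hA hℓN)
  mem_of_algebraMap_mem := fun c hc => mem_of_algebraMap_mem_Ow hπ c hc

end General

/-! ### the residue field of `A` -/

section Residue

set_option synthInstance.maxHeartbeats 400000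

theorem residue_eq_zero_of_not_isUnit (a : ↥A) (ha : ¬ IsUnit a) : residue ↥A a = 0 := by
  rw [residue_eq_zero_iff]
  exact (mem_maximalIdeal a).mpr ha

/-- **`HasRep` for the residue field, hypothesis-free.** -/
theorem hasRep (hA : A.LiesOverPrime ℓ) (hℓN : ¬ ℓ ∣ N) : HasRep A (residue ↥A) N :=
  haveI : CharP (ResidueField ↥A) ℓ := S18.ResidueBasics.charP_residueField A hA
  haveI : IsAlgClosed (ResidueField ↥A) := S18.ResidueBasics.isAlgClosed_residueField A
  hasRepOf N A (residue ↥A) hA hℓN

/-- **The Gauss datum of `ℚ̄(X₀(N))` at `A`** (`ℓ ∤ N`), hypothesis-free. -/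
def gaussDatum (hA : A.LiesOverPrime ℓ) (hℓN : ¬ ℓ ∣ N) :
    Deuring.Core.GaussDatum A (residue ↥A) ↥(modularFunctionFieldBar N)
      ↥(modularFunctionFieldFullC (ResidueField ↥A) N) where
  O := OwV A (residue ↥A) N (hasRep N A hA hℓN)
  red := redV A (residue ↥A) N (hasRep N A hA hℓN)
  pi_surjective := residue_surjective
  algebraMap_mem := algebraMap_mem_OwV (hasRep N A hA hℓN)
  red_algebraMap := redV_algebraMap (hasRep N A hA hℓN)
  red_eq_zero_iff := redV_eq_zero_iff (hasRep N A hA hℓN)
  exists_const_mul_unit := exists_const_mul_unit (hasRep N A hA hℓN)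
  mem_of_algebraMap_mem := fun c hc =>
    mem_of_algebraMap_mem_Ow (residue_eq_zero_of_not_isUnit A) c hc

variable {N A}
variable (hA : A.LiesOverPrime ℓ) (hℓN : ¬ ℓ ∣ N)

theorem gaussDatum_O : (gaussDatum N A hA hℓN).O = OwV A (residue ↥A) N (hasRep N A hA hℓN) := rfl

theorem gaussDatum_red :
    (gaussDatum N A hA hℓN).red = redV A (residue ↥A) N (hasRep N A hA hℓN) := rfl

/-- Membership in the Gauss valuation ring, unfolded: `f = a / b` with `a, b` integral and `b` of
nonzero reduction. -/
theorem mem_O_iff {f : ↥(modularFunctionFieldBar N)} :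
    f ∈ (gaussDatum N A hA hℓN).O ↔
      ∃ a b : ↥(intRing A (residue ↥A) N),
        S18.GaussFromH.red A (residue ↥A) N b ≠ 0 ∧
          f * toFL A (residue ↥A) N b = toFL A (residue ↥A) N a :=
  Iff.rfl

/-- integral elements lie in the Gauss valuation ring -/
theorem toFL_mem_O (a : ↥(intRing A (residue ↥A) N)) :
    toFL A (residue ↥A) N a ∈ (gaussDatum N A hA hℓN).O :=
  toFL_mem_OwV (hasRep N A hA hℓN) a

/-- on integral elements the reduction is the coefficientwise reduction -/
theorem red_toFL (a : ↥(intRing A (residue ↥A) N)) :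
    (gaussDatum N A hA hℓN).red ⟨toFL A (residue ↥A) N a, toFL_mem_O hA hℓN a⟩ =
      S18.GaussFromH.red A (residue ↥A) N a :=
  redV_toFL (hasRep N A hA hℓN) a

/-- the value of the reduction on a quotient of integral elements -/
theorem red_eq (f : ↥(gaussDatum N A hA hℓN).O) {a b : ↥(intRing A (residue ↥A) N)}
    (hb : S18.GaussFromH.red A (residue ↥A) N b ≠ 0)
    (hab : (f : ↥(modularFunctionFieldBar N)) * toFL A (residue ↥A) N b =
      toFL A (residue ↥A) N a) :
    (gaussDatum N A hA hℓN).red f =
      S18.GaussFromH.red A (residue ↥A) N a / S18.GaussFromH.red A (residue ↥A) N b :=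
  redV_eq (hasRep N A hA hℓN) f hb hab

/-- `j` lies in the Gauss valuation ring. -/
theorem jgen_mem_O : jgen N ∈ (gaussDatum N A hA hℓN).O := by
  rw [← HasRep.toFL_jI N A (residue ↥A)]
  exact toFL_mem_O hA hℓN _

/-- **`red j = J`**. -/
theorem red_jgen :
    (gaussDatum N A hA hℓN).red ⟨jgen N, jgen_mem_O hA hℓN⟩ = jk (ResidueField ↥A) N := by
  have h1 : (⟨jgen N, jgen_mem_O hA hℓN⟩ : ↥(gaussDatum N A hA hℓN).O) =
      ⟨toFL A (residue ↥A) N (jI A (residue ↥A) N), toFL_mem_O hA hℓN _⟩ :=
    Subtype.ext (HasRep.toFL_jI N A (residue ↥A)).symm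
  rw [h1, red_toFL, HasRep.red_jI]

/-- the reduction is onto `F_k` -/
theorem red_surjective : Function.Surjective (gaussDatum N A hA hℓN).red :=
  redV_surjective (hasRep N A hA hℓN) residue_surjective

end Residue

end Fermat.Agent.S37.Gauss.Datum
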