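import Mathlib
import Fermat.Agent.S37.Gauss.Datum
import Fermat.Agent.S37.Deuring.HypOfBasis
import Fermat.Agent.S37.ReductionInputs

/-!
# PROJECT I (S37), slice I-1a (glue): the orthonormal basis of `ℚ̄(X₀(N))` at `ℓ ∤ N`, (OB), and
`ReductionInputsModL A N` from the inequality of genera alone

For `G := Gauss.Datum.gaussDatum N A hA hℓN` (hypothesis-free Gauss datum):

* `xO` : `j ∈ G.O`, `red_xO : G.red j = J`;
* `exists_basis_O` : a family `u i ∈ G.O` which is a `RatFunc ℚ̄`-basis of `F_L` and whose reduction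
  is a `RatFunc k`-basis of `F_k` (`RatFunc` presentation of `C/ModularInst`);
* `exists_orthonormal` : the same in the `K⟮x⟯` presentation of `Deuring.OrthoBasis.ob_of_basis`;
* `ob : G.OB`, `ob_datumModL`;
* `finrank_eq`, `finrank_ratFunc_eq` : `[F_L : ℚ̄(j)] = [F_k : k(J)]` (both `ψ(N)`);
* `hyp_of_genus_le` : `Deuring.Core.Hyp G gL gk` from `gL ≤ gk`;
* `reductionInputsModL_of_genus_le` : `ReductionInputsModL A N` from the inequality of genera.
-/

set_option autoImplicit false
set_option linter.unusedSectionVars false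

noncomputable section

namespace Fermat.Agent.S37.Gauss.OrthoBasisX0

open HahnSeries ModularCurve IsLocalRing IntermediateField
open Fermat.Agent.S18.GaussFromH Fermat.Agent.S18.C Fermat.Agent.S18.A
open Fermat.Agent.S24.DegreeAlg (jgen)
open Fermat.Agent.S18.B.FkBasics (jk transcendental_jk)
open Fermat.Agent.S28.GaussFull (OwFull redwFull)

/-! ### from the `RatFunc` presentation to `K⟮x⟯` -/

section Generic

variable {K F : Type*} [Field K] [Field F] [Algebra K F] {x : F} (hx : Transcendental K x)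
  [Algebra (RatFunc K) F] (halg : ∀ a : RatFunc K, algebraMap (RatFunc K) F a = Chart.evalRat hx a)

include halg

theorem linearIndependent_adjoin {ι : Type*} (v : ι → F)
    (hv : LinearIndependent (RatFunc K) v) (y : F) (hy : x = y) : LinearIndependent K⟮y⟯ v := by
  subst hy
  have hxy : x ∈ K⟮x⟯ := mem_adjoin_simple_self K x
  let e := Chart.ratEquivAdjoin hx hxy (Chart.evalRat_X hx)
  rw [linearIndependent_iff'] at hv ⊢
  intro s g hg i hi
  have h1 : ∑ i ∈ s, e.symm (g i) • v i = 0 := by
    rw [← hg]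
    refine Finset.sum_congr rfl fun i _ => ?_
    rw [Algebra.smul_def, halg, Chart.evalRat_ratEquivAdjoin_symm]
    rfl
  have h2 := hv s (fun i => e.symm (g i)) h1 i hi
  exact (EmbeddingLike.map_eq_zero_iff (f := e.symm)).mp h2

theorem top_le_span_adjoin {ι : Type*} [Fintype ι] (b : Module.Basis ι (RatFunc K) F) :
    ⊤ ≤ Submodule.span K⟮x⟯ (Set.range b) := by
  intro f _
  rw [← b.sum_repr f]
  refine Submodule.sum_mem _ fun i _ => ?_
  have hmem : Chart.evalRat hx (b.repr f i) ∈ K⟮x⟯ :=
    Chart.evalRat_mem_adjoin hx (mem_adjoin_simple_self K x) _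
  have h1 : b.repr f i • b i = (⟨_, hmem⟩ : K⟮x⟯) • b i := by
    rw [Algebra.smul_def, halg]
    rfl
  rw [h1]
  exact Submodule.smul_mem _ _ (Submodule.subset_span ⟨i, rfl⟩)

end Generic

/-! ### the orthonormal basis of `ℚ̄(X₀(N))` -/

section X0

set_option synthInstance.maxHeartbeats 400000

local notation "Kb" => AlgebraicClosure ℚ

variable {ℓ : ℕ} [Fact ℓ.Prime] {N : ℕ} [NeZero N] {A : ValuationSubring Kb}
variable (hA : A.LiesOverPrime ℓ) (hℓN : ¬ ℓ ∣ N)

/-- `j` as an element of the Gauss valuation ring -/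
def xO : ↥(Datum.gaussDatum N A hA hℓN).O := ⟨jgen N, Datum.jgen_mem_O hA hℓN⟩

@[simp] theorem coe_xO :
    ((xO hA hℓN : ↥(Datum.gaussDatum N A hA hℓN).O) : ↥(modularFunctionFieldBar N)) = jgen N := rfl

theorem red_xO : (Datum.gaussDatum N A hA hℓN).red (xO hA hℓN) = jk (ResidueField ↥A) N :=
  Datum.red_jgen hA hℓN

theorem transcendental_red_xO :
    Transcendental (ResidueField ↥A) ((Datum.gaussDatum N A hA hℓN).red (xO hA hℓN)) := by
  rw [red_xO]
  exact transcendental_jk _ N

/-- **The orthonormal basis, `RatFunc` presentation**: a family in the Gauss valuation ring which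
is a `ℚ̄(j)`-basis of `F_L` and whose reduction is a `k(J)`-basis of `F_k`. -/
theorem exists_basis_O :
    ∃ (n : ℕ) (u : Fin n → ↥(Datum.gaussDatum N A hA hℓN).O)
      (bL : Module.Basis (Fin n) (RatFunc Kb) ↥(modularFunctionFieldBar N))
      (bk : Module.Basis (Fin n) (RatFunc (ResidueField ↥A))
        ↥(modularFunctionFieldFullC (ResidueField ↥A) N)),
      (∀ i, bL i = ((u i : ↥(Datum.gaussDatum N A hA hℓN).O) : ↥(modularFunctionFieldBar N))) ∧
      (∀ i, bk i = (Datum.gaussDatum N A hA hℓN).red (u i)) := by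
  have : CharP (ResidueField ↥A) ℓ := S18.ResidueBasics.charP_residueField A hA
  have : IsAlgClosed (ResidueField ↥A) := S18.ResidueBasics.isAlgClosed_residueField A
  let _ : Algebra (ZMod ℓ) (ResidueField ↥A) := ZMod.algebra _ ℓ
  obtain ⟨n, t, bL, bk, hbL, hbk⟩ := HasRep.exists_bases ℓ N (ResidueField ↥A) hℓN
  choose α β hβ hLαβ hKαβ using fun i =>
    HasRep.exists_rep_OwFull N A (residue ↥A) hA hℓN (t i)
  have hmem : ∀ i, Forms.embBar N ((t i : ↥(OwFull ℓ N)) : ↥(modularFunctionFieldFull N)) ∈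
      (Datum.gaussDatum N A hA hℓN).O := fun i =>
    (Datum.mem_O_iff hA hℓN).mpr ⟨α i, β i, hβ i, hLαβ i⟩
  refine ⟨n, fun i => ⟨_, hmem i⟩, bL, bk, fun i => hbL i, fun i => ?_⟩
  rw [hbk i, Datum.red_eq hA hℓN ⟨_, hmem i⟩ (hβ i) (hLαβ i), ← hKαβ i, mul_div_assoc,
    div_self (hβ i), mul_one]

set_option maxHeartbeats 1600000 in
/-- **The orthonormal basis, in the shape of `Deuring.OrthoBasis.ob_of_basis`.** -/
theorem exists_orthonormal :
    ∃ (n : ℕ) (u : Fin n → ↥(Datum.gaussDatum N A hA hℓN).O),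
      LinearIndependent (ResidueField ↥A)⟮(Datum.gaussDatum N A hA hℓN).red (xO hA hℓN)⟯
        (fun i => (Datum.gaussDatum N A hA hℓN).red (u i)) ∧
      ⊤ ≤ Submodule.span Kb⟮((xO hA hℓN : ↥(Datum.gaussDatum N A hA hℓN).O) :
          ↥(modularFunctionFieldBar N))⟯
        (Set.range fun i => ((u i : ↥(Datum.gaussDatum N A hA hℓN).O) :
          ↥(modularFunctionFieldBar N))) := by
  obtain ⟨n, u, bL, bk, hbL, hbk⟩ := exists_basis_O hA hℓN
  refine ⟨n, u, ?_, ?_⟩
  · have h2 : (fun i => (Datum.gaussDatum N A hA hℓN).red (u i)) = ⇑bk :=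
      funext fun i => (hbk i).symm
    rw [h2]
    exact linearIndependent_adjoin (K := ResidueField ↥A)
      (F := ↥(modularFunctionFieldFullC (ResidueField ↥A) N)) (x := jk (ResidueField ↥A) N)
      (transcendental_jk (ResidueField ↥A) N)
      (ModularInst.algebraMap_Fk N (ResidueField ↥A)) ⇑bk bk.linearIndependent
      ((Datum.gaussDatum N A hA hℓN).red (xO hA hℓN)) (red_xO hA hℓN).symm
  · have h2 : (fun i => ((u i : ↥(Datum.gaussDatum N A hA hℓN).O) :
        ↥(modularFunctionFieldBar N))) = ⇑bL := funext fun i => (hbL i).symm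
    rw [h2]
    exact top_le_span_adjoin (K := Kb) (F := ↥(modularFunctionFieldBar N)) (x := jgen N)
      (ModularInst.transcendental_jgen N) (ModularInst.algebraMap_FL N) bL

/-- **(OB) for the Gauss datum of `ℚ̄(X₀(N))`**, hypothesis-free. -/
theorem ob : (Datum.gaussDatum N A hA hℓN).OB := by
  obtain ⟨n, u, hi, hii⟩ := exists_orthonormal hA hℓN
  exact Deuring.OrthoBasis.ob_of_basis _ (xO hA hℓN) u (transcendental_red_xO hA hℓN) hi hii

/-- the same for the spelling `ReductionInputs.datumModL` of the datum -/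
theorem ob_datumModL : (ReductionInputs.datumModL (Datum.hasRep N A hA hℓN)).OB :=
  ob hA hℓN

include hA hℓN in
/-- **The degree equality `[F_L : ℚ̄(j)] = [F_k : k(J)]`**, hypothesis-free (both are `ψ(N)`). -/
theorem finrank_eq :
    Module.finrank Kb⟮jgen N⟯ ↥(modularFunctionFieldBar N) =
      Module.finrank (ResidueField ↥A)⟮jk (ResidueField ↥A) N⟯
        ↥(modularFunctionFieldFullC (ResidueField ↥A) N) := by
  have : CharP (ResidueField ↥A) ℓ := S18.ResidueBasics.charP_residueField A hA
  have : IsAlgClosed (ResidueField ↥A) := S18.ResidueBasics.isAlgClosed_residueField A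
  let _ : Algebra (ZMod ℓ) (ResidueField ↥A) := ZMod.algebra _ ℓ
  rw [Forms.finrank_bar_eq_dedekindPsi, FormsZMod.finrank_fullC_eq ℓ N (ResidueField ↥A) hℓN]

include hA hℓN in
/-- the degree equality in the `RatFunc` presentation -/
theorem finrank_ratFunc_eq :
    Module.finrank (RatFunc Kb) ↥(modularFunctionFieldBar N) =
      Module.finrank (RatFunc (ResidueField ↥A))
        ↥(modularFunctionFieldFullC (ResidueField ↥A) N) := by
  have : CharP (ResidueField ↥A) ℓ := S18.ResidueBasics.charP_residueField A hA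
  have : IsAlgClosed (ResidueField ↥A) := S18.ResidueBasics.isAlgClosed_residueField A
  let _ : Algebra (ZMod ℓ) (ResidueField ↥A) := ZMod.algebra _ ℓ
  rw [(BaseChangeR.finrank_ratFunc_bar N).2,
    FormsZMod.finrank_ratFunc_fullC_eq ℓ N (ResidueField ↥A) hℓN]

open Fermat.Agent.S18.NonSpecial in
/-- **All hypotheses of Deuring's theorem except the inequality of genera.** -/
theorem hyp_of_genus_le {gL gk : ℕ} (HL : RiemannHyp Kb ↥(modularFunctionFieldBar N) gL)
    (HK : RiemannHyp (ResidueField ↥A) ↥(modularFunctionFieldFullC (ResidueField ↥A) N) gk)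
    (hg : gL ≤ gk) : Deuring.Core.Hyp (Datum.gaussDatum N A hA hℓN) gL gk := by
  obtain ⟨n, u, hi, hii⟩ := exists_orthonormal hA hℓN
  exact Deuring.HypOfBasis.hyp_of_basis _ (Fermat.Agent.S24.Degree.isFF N) HL HK hg
    (Datum.red_surjective hA hℓN) (xO hA hℓN) u (transcendental_red_xO hA hℓN) hi hii

include hA hℓN in
open Fermat.Agent.S18.NonSpecial in
/-- **`ReductionInputsModL A N` for every `ℓ ∤ N` from the inequality of genera alone.** -/
theorem reductionInputsModL_of_genus_le
    (hg : ∀ gL gk : ℕ, RiemannHyp Kb ↥(modularFunctionFieldBar N) gL →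
      RiemannHyp (ResidueField ↥A) ↥(modularFunctionFieldFullC (ResidueField ↥A) N) gk →
        gL ≤ gk) :
    ReductionInputsModL A N :=
  ReductionInputs.reductionInputsModL_of_ob' (Datum.hasRep N A hA hℓN) (ob_datumModL hA hℓN) hg

end X0

end Fermat.Agent.S37.Gauss.OrthoBasisX0
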