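/-
PROJECT I (S37), slice I-1a SUPPORT (helper9): THE TRANSFER FROM THE `ℚ`-LEVEL GAUSS VALUATION RING
`OwFull ℓ N ⊆ F0 = ℚ(j(q^d) : d ∣ N)` (S28/GaussFull, S18/C/GaussDVR) TO THE `A`-LEVEL RING
`GaussFromH.Ow A π N ⊆ FL = L(j(q^d) : d ∣ N)` (S18/GaussFromH).

Setting: `L` a field over `ℚ`, `A : ValuationSubring L`, `π : A →+* k` any ring hom to a field `k`
which is a `ZMod ℓ`-algebra (e.g. the residue map of `A`, when `A` lies over `ℓ`), `ℓ ∤ N`.

* `liesOverPrime π : A.LiesOverPrime ℓ`, `algebraMap_mem_of_mem_Zl`, `zlToA : ℤ_(ℓ) →+* A`,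
  `pi_zlToA : π (zlToA x) = (x mod ℓ)`;
* `liftA : Ol ℓ →+* A((q))`, the coefficientwise lift, with
  `coeffMap A.subtype (liftA a) = coeffEmb L a` and `coeffMap π (liftA a) = coeffMap _ (red ℓ a)`;
* `liftI π hℓN a haF ha : intRing A π N` for `a ∈ F0 ∩ Ol ℓ`, with
  `toFL (liftI ..) = embL L N ⟨a, haF⟩` and `red (liftI ..) = embK (ZMod ℓ) k N ⟨redL ℓ a, _⟩`;
* `exists_rep`, `embL_mem_Ow`, `redw_embL`: for `o ∈ OwFull ℓ N`, `embL L N o ∈ Ow A π N` and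
  `redw ⟨embL L N o, _⟩ = embK (ZMod ℓ) k N (redFull ℓ N hℓN o)`;
* `owHom : OwFull ℓ N →+* Ow A π N` and the commutative square `redw_owHom`.
For `L = ℚ̄`, `embL L N = Forms.embBar N` (`embL_eq_embBar`, by `rfl`).
-/
import Mathlib
import Fermat.Agent.S18.GaussFromH
import Fermat.Agent.S18.C.GaussZl
import Fermat.Agent.S18.C.Forms

set_option autoImplicit false

noncomputable section

namespace Fermat.Agent.S37.Gauss.Transfer

open HahnSeries ModularCurve IntermediateField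
open Fermat.Agent.S28.GaussVal Fermat.Agent.S28.GaussFull
open Fermat.Agent.S18.GaussFromH Fermat.Agent.S18.C

/-! ### Constants: `ℤ_(ℓ) ⊆ A` -/

section Constants

variable (ℓ : ℕ) [Fact ℓ.Prime]
variable {L : Type*} [Field L] [Algebra ℚ L] {A : ValuationSubring L}
variable {k : Type*} [Field k] [Algebra (ZMod ℓ) k] (π : A →+* k)

/-- A field which is a `ZMod ℓ`-algebra has characteristic `ℓ`. -/
theorem natCast_ell_eq_zero (k : Type*) [Field k] [Algebra (ZMod ℓ) k] : ((ℓ : ℕ) : k) = 0 := by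
  rw [← map_natCast (algebraMap (ZMod ℓ) k), ZMod.natCast_self, map_zero]

omit [Algebra ℚ L] in
include π in
/-- A valuation subring with a ring hom to a field of characteristic `ℓ` lies over `ℓ`. -/
theorem liesOverPrime : A.LiesOverPrime ℓ := by
  show (ℓ : L) ∈ A.nonunits
  rw [ValuationSubring.mem_nonunits_iff_exists_mem_maximalIdeal]
  refine ⟨natCast_mem A ℓ, ?_⟩
  rw [IsLocalRing.mem_maximalIdeal, mem_nonunits_iff]
  intro hu
  have h1 : π ⟨(ℓ : L), natCast_mem A ℓ⟩ = 0 := by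
    have : (⟨(ℓ : L), natCast_mem A ℓ⟩ : A) = ((ℓ : ℕ) : A) := Subtype.ext (by simp)
    rw [this, map_natCast]
    exact natCast_ell_eq_zero ℓ k
  exact (hu.map π).ne_zero h1

include π in
theorem algebraMap_mem_of_mem_Zl {x : ℚ} (hx : x ∈ Zl ℓ) : algebraMap ℚ L x ∈ A := by
  have hV := GaussZl.over_comap ℓ A (liesOverPrime ℓ π)
  have hp : ℓ.Prime := Fact.out
  have h : x ∈ A.comap (algebraMap ℚ L) := by
    rw [GaussZl.mem_iff_den hV]
    exact (Nat.Prime.coprime_iff_not_dvd hp).mp (Nat.coprime_comm.mp ((mem_Zl_iff ℓ).mp hx))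
  exact h

/-- The inclusion `ℤ_(ℓ) → A`. -/
def zlToA : ↥(Zl ℓ) →+* ↥A :=
  ((algebraMap ℚ L).comp (Zl ℓ).subtype).codRestrict A.toSubring
    (fun x => algebraMap_mem_of_mem_Zl ℓ π x.2)

@[simp] theorem coe_zlToA (x : ↥(Zl ℓ)) : ((zlToA ℓ π x : ↥A) : L) = algebraMap ℚ L (x : ℚ) := rfl

/-- Ring homs from `ℤ_(ℓ)` to a field of characteristic `ℓ` are unique. -/
theorem ringHom_Zl_ext (f g : ↥(Zl ℓ) →+* k) : f = g := by
  ext x
  have hden : (((x : ℚ).den : ℕ) : k) ≠ 0 := by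
    rw [← map_natCast (algebraMap (ZMod ℓ) k)]
    exact (map_ne_zero _).mpr (den_ne_zero_of_mem ℓ x.2)
  have hx : (((x : ℚ).den : ℕ) : ↥(Zl ℓ)) * x = (((x : ℚ).num : ℤ) : ↥(Zl ℓ)) := by
    apply Subtype.ext
    push_cast
    rw [mul_comm]
    exact Rat.mul_den_eq_num (x : ℚ)
  have hf := congrArg f hx
  have hg := congrArg g hx
  rw [map_mul, map_natCast, map_intCast] at hf hg
  exact mul_left_cancel₀ hden (hf.trans hg.symm)

/-- **Compatibility of residues**: `π` on `ℤ_(ℓ)` is the reduction mod `ℓ`. -/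
theorem pi_zlToA (x : ↥(Zl ℓ)) :
    π (zlToA ℓ π x) = algebraMap (ZMod ℓ) k (resid ℓ x) :=
  RingHom.congr_fun
    (ringHom_Zl_ext ℓ (π.comp (zlToA ℓ π)) ((algebraMap (ZMod ℓ) k).comp (resid ℓ))) x

/-! ### Series: the coefficientwise lift `Ol ℓ → A((q))` -/

/-- The coefficientwise lift of a series with `ℓ`-integral rational coefficients to `A((q))`. -/
def liftA : ↥(Ol ℓ) →+* LaurentSeries ↥A :=
  (coeffMap (zlToA ℓ π)).comp (liftEquiv ℓ).toRingHom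

theorem liftA_coeff (a : ↥(Ol ℓ)) (n : ℤ) :
    ((liftA ℓ π a).coeff n : L) = algebraMap ℚ L ((a : LaurentSeries ℚ).coeff n) := by
  show ((zlToA ℓ π ((liftEquiv ℓ a).coeff n) : ↥A) : L) = _
  rw [coe_zlToA, liftEquiv_coeff]

/-- The lift realises `coeffEmb L a` over `A`. -/
theorem coeffMap_subtype_liftA (a : ↥(Ol ℓ)) :
    coeffMap A.subtype (liftA ℓ π a) = coeffEmb L (a : LaurentSeries ℚ) := by
  ext n
  rw [coeffMap_coeff, coeffEmb_coeff]
  exact liftA_coeff ℓ π a n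

/-- The reduction of the lift is the (constant-extended) reduction mod `ℓ`. -/
theorem coeffMap_pi_liftA (a : ↥(Ol ℓ)) :
    coeffMap π (liftA ℓ π a) = coeffMap (algebraMap (ZMod ℓ) k) (red ℓ a) := by
  ext n
  rw [coeffMap_coeff, coeffMap_coeff]
  show π (zlToA ℓ π ((liftEquiv ℓ a).coeff n)) =
    algebraMap (ZMod ℓ) k (resid ℓ ((liftEquiv ℓ a).coeff n))
  exact pi_zlToA ℓ π _

end Constants

/-! ### The embedding `F0 → FL` for a general `L` -/

section Emb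

/-- The embedding `F0 = ℚ(j(q^d) : d ∣ N) → FL`, restriction of `coeffEmb L`.
For `L = ℚ̄` this is `Forms.embBar N`. -/
def embL (L : Type*) [Field L] [Algebra ℚ L] (N : ℕ) :
    ↥(modularFunctionFieldFull N) →+* ↥(laurentBaseChange L (modularFunctionFieldFull N)) :=
  (coeffEmb L).restrict (modularFunctionFieldFull N)
    (laurentBaseChange L (modularFunctionFieldFull N))
    (fun _ hx => coeffEmb_mem_laurentBaseChange L hx)

@[simp] theorem coe_embL (L : Type*) [Field L] [Algebra ℚ L] (N : ℕ)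
    (x : ↥(modularFunctionFieldFull N)) :
    ((embL L N x : ↥(laurentBaseChange L (modularFunctionFieldFull N))) : LaurentSeries L) =
      coeffEmb L (x : LaurentSeries ℚ) := rfl

theorem embL_eq_embBar (N : ℕ) : embL (AlgebraicClosure ℚ) N = Forms.embBar N := rfl

end Emb

/-! ### Integral elements: `F0 ∩ Ol ℓ → intRing A π N` -/

section Integral

variable {ℓ : ℕ} [Fact ℓ.Prime] {N : ℕ} [NeZero N]
variable {L : Type*} [Field L] [Algebra ℚ L] {A : ValuationSubring L}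
variable {k : Type*} [Field k] [Algebra (ZMod ℓ) k] (π : A →+* k)

/-- The reduction of an `ℓ`-integral element of `F0` lies in `𝔽_ℓ(J(q^d) : d ∣ N)`. -/
theorem redL_mem_full (hℓN : ¬ ℓ ∣ N) {a : LaurentSeries ℚ} (haF : a ∈ modularFunctionFieldFull N)
    (ha : a ∈ Ol ℓ) : redL ℓ a ∈ modularFunctionFieldFullC (ZMod ℓ) N := by
  have h1 := GaussDVR.redwFull_mem_full ℓ N hℓN
    ⟨⟨a, haF⟩, mem_OwFull_of_mem_Ol ℓ N (x := ⟨a, haF⟩) ha⟩
  have h2 := redwFull_of_mem_Ol ℓ N (x := ⟨a, haF⟩) ha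
  rw [h2] at h1
  exact h1

theorem liftA_mem_intRing (hℓN : ¬ ℓ ∣ N) {a : LaurentSeries ℚ}
    (haF : a ∈ modularFunctionFieldFull N) (ha : a ∈ Ol ℓ) :
    liftA ℓ π ⟨a, ha⟩ ∈ intRing A π N := by
  rw [mem_intRing, coeffMap_subtype_liftA, coeffMap_pi_liftA]
  refine ⟨coeffEmb_mem_laurentBaseChange L haF, ?_⟩
  rw [← redL_of_mem ℓ ha]
  exact Forms.coeffMap_mem_full (ZMod ℓ) k N (redL_mem_full hℓN haF ha)

/-- **The integral lift** of `a ∈ F0 ∩ Ol ℓ`. -/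
def liftI (hℓN : ¬ ℓ ∣ N) (a : LaurentSeries ℚ) (haF : a ∈ modularFunctionFieldFull N)
    (ha : a ∈ Ol ℓ) : ↥(intRing A π N) :=
  ⟨liftA ℓ π ⟨a, ha⟩, liftA_mem_intRing π hℓN haF ha⟩

theorem toFL_liftI (hℓN : ¬ ℓ ∣ N) (a : LaurentSeries ℚ) (haF : a ∈ modularFunctionFieldFull N)
    (ha : a ∈ Ol ℓ) : toFL A π N (liftI π hℓN a haF ha) = embL L N ⟨a, haF⟩ :=
  Subtype.ext (coeffMap_subtype_liftA ℓ π ⟨a, ha⟩)

theorem red_liftI (hℓN : ¬ ℓ ∣ N) (a : LaurentSeries ℚ) (haF : a ∈ modularFunctionFieldFull N)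
    (ha : a ∈ Ol ℓ) :
    red A π N (liftI π hℓN a haF ha) =
      Forms.embK (ZMod ℓ) k N ⟨redL ℓ a, redL_mem_full hℓN haF ha⟩ := by
  apply Subtype.ext
  rw [coe_red, Forms.coe_embK]
  show coeffMap π (liftA ℓ π ⟨a, ha⟩) = coeffMap (algebraMap (ZMod ℓ) k) (redL ℓ a)
  rw [coeffMap_pi_liftA, redL_of_mem ℓ ha]

theorem red_liftI_ne_zero (hℓN : ¬ ℓ ∣ N) (a : LaurentSeries ℚ)
    (haF : a ∈ modularFunctionFieldFull N) (ha : a ∈ Ol ℓ) (h : redL ℓ a ≠ 0) :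
    red A π N (liftI π hℓN a haF ha) ≠ 0 := by
  rw [red_liftI, Ne, map_eq_zero]
  intro h0
  exact h (congrArg Subtype.val h0)

theorem liftI_mul (hℓN : ¬ ℓ ∣ N) (a b : LaurentSeries ℚ) (haF : a ∈ modularFunctionFieldFull N)
    (ha : a ∈ Ol ℓ) (hbF : b ∈ modularFunctionFieldFull N) (hb : b ∈ Ol ℓ) :
    liftI π hℓN (a * b) (mul_mem haF hbF) ((Ol ℓ).mul_mem ha hb) =
      liftI π hℓN a haF ha * liftI π hℓN b hbF hb := by
  apply toFL_injective
  rw [map_mul, toFL_liftI, toFL_liftI, toFL_liftI, ← map_mul]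
  rfl

theorem liftI_add (hℓN : ¬ ℓ ∣ N) (a b : LaurentSeries ℚ) (haF : a ∈ modularFunctionFieldFull N)
    (ha : a ∈ Ol ℓ) (hbF : b ∈ modularFunctionFieldFull N) (hb : b ∈ Ol ℓ) :
    liftI π hℓN (a + b) (add_mem haF hbF) ((Ol ℓ).add_mem ha hb) =
      liftI π hℓN a haF ha + liftI π hℓN b hbF hb := by
  apply toFL_injective
  rw [map_add, toFL_liftI, toFL_liftI, toFL_liftI, ← map_add]
  rfl

/-! ### The transfer `OwFull ℓ N → Ow A π N` -/

/-- The reduction `OwFull ℓ N → 𝔽_ℓ(J(q^d) : d ∣ N)` (codomain restricted; `ℓ ∤ N`). -/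
def redFull (ℓ : ℕ) [Fact ℓ.Prime] (N : ℕ) [NeZero N] (hℓN : ¬ ℓ ∣ N) :
    ↥(OwFull ℓ N) →+* ↥(modularFunctionFieldFullC (ZMod ℓ) N) :=
  (redwFull ℓ N).codRestrict (modularFunctionFieldFullC (ZMod ℓ) N).toSubring
    (fun z => GaussDVR.redwFull_mem_full ℓ N hℓN z)

@[simp] theorem coe_redFull (hℓN : ¬ ℓ ∣ N) (z : ↥(OwFull ℓ N)) :
    ((redFull ℓ N hℓN z : ↥(modularFunctionFieldFullC (ZMod ℓ) N)) : LaurentSeries (ZMod ℓ)) =
      redwFull ℓ N z := rfl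

theorem redFull_eq_zero_iff (hℓN : ¬ ℓ ∣ N) (z : ↥(OwFull ℓ N)) :
    redFull ℓ N hℓN z = 0 ↔ ¬ IsUnit z := by
  rw [← GaussDVR.redwFull_eq_zero_iff_not_isUnit]
  constructor
  · intro h
    exact congrArg Subtype.val h
  · intro h
    exact Subtype.ext h

/-- **Transfer of presentations**: every `o ∈ OwFull ℓ N` is, in `FL`, a fraction `a / b` of
integral elements with `red b ≠ 0` and `red a = (reduction of o) · red b`. -/
theorem exists_rep (hℓN : ¬ ℓ ∣ N) (o : ↥(OwFull ℓ N)) :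
    ∃ a b : ↥(intRing A π N), red A π N b ≠ 0 ∧
      embL L N (o : ↥(modularFunctionFieldFull N)) * toFL A π N b = toFL A π N a ∧
      red A π N a = Forms.embK (ZMod ℓ) k N (redFull ℓ N hℓN o) * red A π N b := by
  obtain ⟨a, b, haF, ha, hbF, hb, hrb, hab⟩ := o.2
  refine ⟨liftI π hℓN a haF ha, liftI π hℓN b hbF hb, red_liftI_ne_zero π hℓN b hbF hb hrb,
    ?_, ?_⟩
  · rw [toFL_liftI, toFL_liftI, ← map_mul]
    congr 1
    exact Subtype.ext hab
  · rw [red_liftI, red_liftI, ← map_mul]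
    congr 1
    apply Subtype.ext
    show redL ℓ a = redwFull ℓ N o * redL ℓ b
    have h1 : redwFull ℓ N o = redL ℓ a / redL ℓ b :=
      redwL_eq ha hb haF hbF hrb hab
    rw [h1, div_mul_cancel₀ _ hrb]

theorem embL_mem_Ow (hℓN : ¬ ℓ ∣ N) (o : ↥(OwFull ℓ N)) :
    embL L N (o : ↥(modularFunctionFieldFull N)) ∈ Ow A π N := by
  obtain ⟨a, b, hb, hab, -⟩ := exists_rep π hℓN o
  exact ⟨a, b, hb, hab⟩

/-- **The reductions agree**: `redw (embL o) = embK (redwFull o)`. -/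
theorem redw_embL (hℓN : ¬ ℓ ∣ N) (o : ↥(OwFull ℓ N)) :
    redw A π N ⟨embL L N (o : ↥(modularFunctionFieldFull N)), embL_mem_Ow π hℓN o⟩ =
      Forms.embK (ZMod ℓ) k N (redFull ℓ N hℓN o) := by
  obtain ⟨a, b, hb, hab, hr⟩ := exists_rep π hℓN o
  rw [redw_eq ⟨embL L N (o : ↥(modularFunctionFieldFull N)), embL_mem_Ow π hℓN o⟩ hb hab, hr,
    mul_div_cancel_right₀ _ hb]

/-- The transfer as a ring hom `OwFull ℓ N → Ow A π N`. -/
def owHom (hℓN : ¬ ℓ ∣ N) : ↥(OwFull ℓ N) →+* ↥(Ow A π N) :=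
  ((embL L N).comp (OwFull ℓ N).subtype).codRestrict (Ow A π N)
    (fun o => embL_mem_Ow π hℓN o)

@[simp] theorem coe_owHom (hℓN : ¬ ℓ ∣ N) (o : ↥(OwFull ℓ N)) :
    ((owHom π hℓN o : ↥(Ow A π N)) : ↥(laurentBaseChange L (modularFunctionFieldFull N))) =
      embL L N (o : ↥(modularFunctionFieldFull N)) := rfl

/-- **The commutative square** `redw ∘ owHom = embK ∘ redFull`. -/
theorem redw_owHom (hℓN : ¬ ℓ ∣ N) (o : ↥(OwFull ℓ N)) :
    redw A π N (owHom π hℓN o) = Forms.embK (ZMod ℓ) k N (redFull ℓ N hℓN o) :=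
  redw_embL π hℓN o

/-- Units of `OwFull` have nonzero reduction in `Fk`. -/
theorem redw_owHom_ne_zero (hℓN : ¬ ℓ ∣ N) (o : ↥(OwFull ℓ N)) (ho : IsUnit o) :
    redw A π N (owHom π hℓN o) ≠ 0 := by
  rw [redw_owHom, Ne, map_eq_zero, redFull_eq_zero_iff]
  exact not_not.mpr ho

end Integral

end Fermat.Agent.S37.Gauss.Transfer

end
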